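import Fermat.Agent.Root.CharForms
import Fermat.Agent.Root.RemovalAtP
import Fermat.Agent.ModField.Semistable.AtP.LowerThree
import Fermat.Agent.HeckeH1.NonEisenstein
import Fermat.Prelude.Def_WeierstrassCurve_PeuRamifiee

/-!
# Removal of `p` from a residual level

For an odd prime `p` and a curve semistable at `p` with irreducible representation modulo `p`,
finite flat at `p`, a level exactly divisible by `p` can be divided by `p`.
-/

set_option autoImplicit false
set_option linter.style.haveILetI false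
set_option linter.unusedSectionVars false
set_option maxHeartbeats 1600000

noncomputable section

open scoped WeierstrassCurve.Affine
open WeierstrassCurve Matrix FA.Local FA.LocalDef FA.RT FA.Frob

namespace FA.Root

open ModularCurve FA.CurveRed in
/-- **Removal of `p` from a residual level** where the representation is finite flat at `p`. -/
theorem isResiduallyModularOfLevel_div_atP {p : ℕ} [Fact p.Prime] (hp2 : p ≠ 2)
    {W : WeierstrassCurve ℤ} (hΔ : W.Δ ≠ 0)
    (hsemi : (p : ℤ) ∣ W.Δ → ¬ (p : ℤ) ∣ W.c₄)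
    (hval : (p : ℤ) ∣ W.Δ → p ∣ padicValInt p W.Δ)
    (hirr : W.ModRepIsIrreducible p) {N : ℕ} (hN : 0 < N) (hpN : p ∣ N) (hp2N : ¬ p ^ 2 ∣ N)
    (hmod : W.IsResiduallyModularOfLevel p N) : W.IsResiduallyModularOfLevel p (N / p) := by
  classical
  have hp : p.Prime := Fact.out
  haveI : NeZero p := ⟨hp.ne_zero⟩
  haveI : (ratCurve W).IsElliptic := FA.Frob.ratCurve_isElliptic_of_Δ hΔ
  obtain ⟨M, rfl⟩ : ∃ M, N = M * p := ⟨N / p, (Nat.div_mul_cancel hpN).symm⟩
  rw [Nat.mul_div_cancel M hp.pos]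
  haveI : NeZero (M * p) := ⟨hN.ne'⟩
  haveI : NeZero M := ⟨(mul_ne_zero_iff.1 hN.ne').1⟩
  have hpM : ¬ p ∣ M := fun h => hp2N (by rw [pow_two]; exact Nat.mul_dvd_mul_right h p)
  obtain ⟨alg⟩ := FA.JTorsion.exists_algebra_qbar
  letI := alg
  obtain ⟨A, hA⟩ := FA.Deform.exists_liesOverPrime hp
  haveI : IsAlgClosed (IsLocalRing.ResidueField A) := FA.Frob.residueField_isAlgClosed A
  haveI : CharP (IsLocalRing.ResidueField A) p := FA.Frob.residueField_charP A hp hA
  have hflat : IsFlatRes A (curveRep p W) := by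
    by_cases hbad : (p : ℤ) ∣ W.Δ
    · exact isFlatRes_curveRep_mult W ⟨hΔ, hp, hbad, hsemi hbad, hA⟩ hp2 (hval hbad)
    · exact isFlatRes_curveRep W hA hbad
  let S : Finset ℕ := {p} ∪ M.primeFactors ∪ W.Δ.natAbs.primeFactors
  have hgood : ∀ ℓ : ℕ, ℓ.Prime → ℓ ∉ S → W.IsGoodPrimeFor ℓ := fun ℓ hℓ hℓS hd => hℓS
    (Finset.mem_union_right _ (Nat.mem_primeFactors.2
      ⟨hℓ, Int.natCast_dvd.1 hd, Int.natAbs_ne_zero.2 hΔ⟩))
  have hpS : p ∈ S := by simp [S]
  have hS : M.primeFactors ⊆ S := fun x hx => by simp [S, hx]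
  have hS' : (M * p).primeFactors ⊆ S := by
    rw [Nat.primeFactors_mul (NeZero.ne M) hp.ne_zero, hp.primeFactors]
    exact Finset.union_subset hS (Finset.singleton_subset_iff.2 hpS)
  obtain ⟨χ, hχ⟩ := exists_char_of_isResiduallyModular hmod S hS' hpS hgood
  obtain ⟨χ', hχ'⟩ := FA.ModField.AtP.exists_chi_lowerAtP_all M A hA hpM hp2 S hS hpS
    (fun ℓ => (W.apOfModel ℓ : ZMod p)) (curveRep p W) (isOpen_ker_curveRep W)
    (span_eq_top_of_noLine _ (algebraMap (ZMod p) (AlgebraicClosure (ZMod p)))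
      (noLine_top_curveRep W hp2 hirr _))
    (fun ℓ hℓ hℓS B hB τ hτ => by
      have hℓp : p ≠ ℓ := fun e => hℓS (e ▸ hpS)
      refine ⟨trace_curveRep W hℓ (hgood ℓ hℓ hℓS) hℓp hB hτ, ?_⟩
      rw [curveRep_apply, LinearMap.det_toMatrix]
      exact det_frobenius W hℓ (hgood ℓ hℓ hℓS) hℓp hB hτ)
    (by
      obtain ⟨l, hl, hlS, -, -, hl1, ha⟩ := HeckeH1.exists_prime_trace_ne_two (FA.Frob.ratCurve W)
        (W := W) ⟨1, by rw [one_smul]⟩ hp hp2 hirr one_pos S
      exact ⟨l, hl, hlS, by rw [hl1.of_mul_left 1, Nat.mod_eq_of_lt hp.one_lt], ha⟩)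
    hflat (detOmega_curveRep W A) χ hχ
  exact isResiduallyModularOfLevel_of_char hΔ S χ' hχ'

/-- The valuation of the discriminant at a peu ramifiée prime. -/
theorem dvd_padicValInt_of_isPeuRamifieeAt {W : WeierstrassCurve ℤ} {p : ℕ}
    (h : (W.map (Int.castRingHom ℚ)).IsPeuRamifieeAt p p) : p ∣ padicValInt p W.Δ := by
  rw [IsPeuRamifieeAt, map_Δ, eq_intCast, padicValRat.of_int] at h
  exact Int.natCast_dvd_natCast.1 h

end FA.Root

end
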